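/-
helper29: basic facts about places of a function field `F/K` (P-GENUS, GEN-1).
Everything lives in namespace `Fermat.Agent.H29`.
-/
import Fermat.Prelude.Def_AlgebraicCurve_Repartitions
import Mathlib

set_option autoImplicit false

noncomputable section

open AlgebraicCurve IntermediateField Polynomial

namespace Fermat.Agent.H29

section basics

variable {K F : Type*} [Field K] [Field F] [Algebra K F] (v : Place K F)

theorem place_mem_iff {f : F} : f ∈ v.toValuationSubring ↔ f = 0 ∨ 0 ≤ v.ord f := by
  constructor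
  · intro hf
    exact v.adicValuation_le_one_iff.mp (v.adicValuation_le_one_of_mem hf)
  · rintro (rfl | h)
    · exact zero_mem _
    · by_cases hf : f = 0
      · subst hf; exact zero_mem _
      obtain ⟨π, hπ⟩ := IsDiscreteValuationRing.exists_irreducible v.toValuationSubring
      obtain ⟨u, hu⟩ := v.exists_unit_mul_zpow hf hπ
      rw [hu, show v.ord f = (((v.ord f).toNat : ℕ) : ℤ) from (Int.toNat_of_nonneg h).symm,
        zpow_natCast]
      exact mul_mem (u : v.toValuationSubring).2 (pow_mem (π : v.toValuationSubring).2 _)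

theorem place_ord_nonneg_of_mem {f : F} (hf : f ∈ v.toValuationSubring) : 0 ≤ v.ord f := by
  rcases (place_mem_iff v).mp hf with rfl | h
  · simp
  · exact h

theorem place_mem_of_ord_nonneg {f : F} (h : 0 ≤ v.ord f) : f ∈ v.toValuationSubring :=
  (place_mem_iff v).mpr (Or.inr h)

theorem place_ord_algebraMap (c : K) : v.ord (algebraMap K F c) = 0 := by
  by_cases hc : c = 0
  · subst hc; simp
  have h1 : 0 ≤ v.ord (algebraMap K F c) := place_ord_nonneg_of_mem v (v.algebraMap_mem' c)
  have h2 : 0 ≤ v.ord (algebraMap K F c⁻¹) := place_ord_nonneg_of_mem v (v.algebraMap_mem' c⁻¹)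
  rw [map_inv₀, v.ord_inv] at h2
  omega

/-- An element of the valuation ring is a unit iff it is nonzero of order zero. -/
theorem place_isUnit_iff (a : v.toValuationSubring) :
    IsUnit a ↔ (a : F) ≠ 0 ∧ v.ord (a : F) = 0 := by
  rw [← v.adicValuation_coe_eq_one_iff]
  constructor
  · intro h
    have h0 : (a : F) ≠ 0 := by
      intro h0
      rw [h0, map_zero] at h
      exact zero_ne_one h
    refine ⟨h0, ?_⟩
    simp [Place.ord, h]
  · rintro ⟨h0, h⟩
    rw [v.adicValuation_eq_exp_neg_ord h0, h]
    simp

theorem place_mem_maximalIdeal_iff (a : v.toValuationSubring) :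
    a ∈ IsLocalRing.maximalIdeal v.toValuationSubring ↔ (a : F) = 0 ∨ 0 < v.ord (a : F) := by
  rw [IsLocalRing.mem_maximalIdeal, mem_nonunits_iff, place_isUnit_iff]
  have h := place_ord_nonneg_of_mem v a.2
  constructor
  · intro hn
    by_cases h0 : (a : F) = 0
    · exact Or.inl h0
    · right
      have : v.ord (a : F) ≠ 0 := fun h' => hn ⟨h0, h'⟩
      omega
  · rintro (h0 | hpos) ⟨hne, h'⟩
    · exact hne h0
    · omega

theorem place_ord_add_nonneg_sub {f g : F} (hf : 0 < v.ord f ∨ f = 0) (hg : 0 < v.ord g ∨ g = 0) :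
    0 < v.ord (f + g) ∨ f + g = 0 := by
  have hfm : f ∈ v.toValuationSubring := by
    rcases hf with h | rfl
    · exact place_mem_of_ord_nonneg v h.le
    · exact zero_mem _
  have hgm : g ∈ v.toValuationSubring := by
    rcases hg with h | rfl
    · exact place_mem_of_ord_nonneg v h.le
    · exact zero_mem _
  have h1 : (⟨f, hfm⟩ : v.toValuationSubring) ∈ IsLocalRing.maximalIdeal v.toValuationSubring :=
    (place_mem_maximalIdeal_iff v _).mpr (by rcases hf with h | h; exacts [Or.inr h, Or.inl h])
  have h2 : (⟨g, hgm⟩ : v.toValuationSubring) ∈ IsLocalRing.maximalIdeal v.toValuationSubring :=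
    (place_mem_maximalIdeal_iff v _).mpr (by rcases hg with h | h; exacts [Or.inr h, Or.inl h])
  have h3 := (place_mem_maximalIdeal_iff v _).mp (Ideal.add_mem _ h1 h2)
  rcases h3 with h | h
  · exact Or.inr h
  · exact Or.inl h

end basics

end Fermat.Agent.H29
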