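/-
helper29: places of `F` versus height one primes of a Dedekind domain with fraction field `F` (GEN-1).
Everything lives in namespace `Fermat.Agent.H29`.
-/
import Fermat.Agent.H29.PlaceBasics

set_option autoImplicit false

noncomputable section

open AlgebraicCurve IntermediateField Polynomial IsDedekindDomain
open scoped IntermediateField.algebraAdjoinAdjoin

namespace Fermat.Agent.H29

section dedekind

variable {K F : Type*} [Field K] [Field F] [Algebra K F]
variable {R : Type*} [CommRing R] [IsDedekindDomain R] [Algebra R F] [IsFractionRing R F]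
  [Algebra K R] [IsScalarTower K R F]

/-- The order function of the place attached to a height one prime is the adic valuation. -/
theorem ord_ofHeightOneSpectrum (w : HeightOneSpectrum R) (f : F) :
    (Place.ofHeightOneSpectrum (K := K) w).ord f = -(WithZero.log (w.valuation F f)) := by
  set v := Place.ofHeightOneSpectrum (K := K) (F := F) w with hv
  by_cases hf : f = 0
  · subst hf; simp
  obtain ⟨π, hπ⟩ := w.valuation_exists_uniformizer F
  have hπ0 : π ≠ 0 := by
    intro h
    rw [h, map_zero] at hπ
    exact WithZero.exp_ne_zero hπ.symm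
  have hmem : ∀ g : F, g ∈ v.toValuationSubring ↔ w.valuation F g ≤ 1 := fun g => Iff.rfl
  have hπmem : π ∈ v.toValuationSubring := by
    rw [hmem, hπ, ← WithZero.exp_zero, WithZero.exp_le_exp]
    norm_num
  -- `π` is irreducible in the valuation ring
  have hunit : ∀ a : v.toValuationSubring, w.valuation F (a : F) = 1 → IsUnit a := by
    intro a ha
    have ha0 : (a : F) ≠ 0 := by
      intro h
      rw [h, map_zero] at ha
      exact zero_ne_one ha
    have hinv : (a : F)⁻¹ ∈ v.toValuationSubring := by
      rw [hmem, map_inv₀, ha, inv_one]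
    refine IsUnit.of_mul_eq_one ⟨(a : F)⁻¹, hinv⟩ ?_
    ext
    simp [ha0]
  have hirr : Irreducible (⟨π, hπmem⟩ : v.toValuationSubring) := by
    rw [irreducible_iff]
    constructor
    · intro hu
      have := (place_isUnit_iff v _).mp hu
      obtain ⟨u, hu'⟩ := hu
      have h1 : (((u⁻¹ : (v.toValuationSubring)ˣ) : v.toValuationSubring) : F) = π⁻¹ := by
        have h2 : ((u : v.toValuationSubring) : F) = π := by rw [hu']
        have h3 : ((u : v.toValuationSubring) : F) * (((u⁻¹ : (v.toValuationSubring)ˣ) :
            v.toValuationSubring) : F) = 1 := by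
          rw [← MulMemClass.coe_mul, Units.mul_inv]; rfl
        rw [h2] at h3
        exact eq_inv_of_mul_eq_one_right h3
      have h4 : π⁻¹ ∈ v.toValuationSubring := h1 ▸ ((u⁻¹ : (v.toValuationSubring)ˣ) :
            v.toValuationSubring).2
      rw [hmem, map_inv₀, hπ, ← WithZero.exp_neg, ← WithZero.exp_zero, WithZero.exp_le_exp] at h4
      norm_num at h4
    · intro a b hab
      have hab' : π = (a : F) * (b : F) := by
        have := congrArg Subtype.val hab
        simpa using this
      have ha0 : (a : F) ≠ 0 := by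
        intro h; rw [h, zero_mul] at hab'; exact hπ0 hab'
      have hb0 : (b : F) ≠ 0 := by
        intro h; rw [h, mul_zero] at hab'; exact hπ0 hab'
      have hva : w.valuation F (a : F) ≤ 1 := a.2
      have hvb : w.valuation F (b : F) ≤ 1 := b.2
      have hval : w.valuation F (a : F) * w.valuation F (b : F) = WithZero.exp (-1 : ℤ) := by
        rw [← map_mul, ← hab', hπ]
      have hva0 : w.valuation F (a : F) ≠ 0 := (Valuation.ne_zero_iff _).mpr ha0
      have hvb0 : w.valuation F (b : F) ≠ 0 := (Valuation.ne_zero_iff _).mpr hb0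
      obtain ⟨m, hm⟩ : ∃ m : ℤ, w.valuation F (a : F) = WithZero.exp m :=
        ⟨_, (WithZero.exp_log hva0).symm⟩
      obtain ⟨n, hn⟩ : ∃ n : ℤ, w.valuation F (b : F) = WithZero.exp n :=
        ⟨_, (WithZero.exp_log hvb0).symm⟩
      rw [hm, ← WithZero.exp_zero, WithZero.exp_le_exp] at hva
      rw [hn, ← WithZero.exp_zero, WithZero.exp_le_exp] at hvb
      rw [hm, hn, ← WithZero.exp_add, WithZero.exp_inj] at hval
      by_cases hm0 : m = 0
      · left
        apply hunit
        rw [hm, hm0, WithZero.exp_zero]
      · right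
        apply hunit
        rw [hn, show n = 0 by omega, WithZero.exp_zero]
  -- write `f = u * π ^ n`
  set n : ℤ := -(WithZero.log (w.valuation F f)) with hn
  have hvf0 : w.valuation F f ≠ 0 := (Valuation.ne_zero_iff _).mpr hf
  have hvf : w.valuation F f = WithZero.exp (-n) := by
    rw [hn, neg_neg, WithZero.exp_log hvf0]
  have hu1 : w.valuation F (f * π ^ (-n)) = 1 := by
    rw [map_mul, map_zpow₀, hπ, hvf, ← WithZero.exp_zsmul, ← WithZero.exp_add]
    simp
  have humem : f * π ^ (-n) ∈ v.toValuationSubring := by
    rw [hmem, hu1]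
  obtain ⟨u, hu⟩ := hunit ⟨f * π ^ (-n), humem⟩ hu1
  have hfu : f = ((u : v.toValuationSubring) : F) *
      (((⟨π, hπmem⟩ : v.toValuationSubring) : F) ^ n) := by
    rw [hu]
    simp only
    rw [mul_assoc, ← zpow_add₀ hπ0]
    simp
  conv_lhs => rw [hfu]
  exact v.ord_unit_smul_zpow u hirr n

theorem ord_ofHeightOneSpectrum_pos_iff (w : HeightOneSpectrum R) (r : R) :
    (r = 0 ∨ 0 < (Place.ofHeightOneSpectrum (K := K) w).ord (algebraMap R F r)) ↔
      r ∈ w.asIdeal := by
  rw [← w.valuation_lt_one_iff_mem (K := F), ord_ofHeightOneSpectrum]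
  by_cases hr : r = 0
  · subst hr; simp
  have hr' : algebraMap R F r ≠ 0 := by
    simpa using hr
  have h0 : w.valuation F (algebraMap R F r) ≠ 0 := (Valuation.ne_zero_iff _).mpr hr'
  rw [← WithZero.exp_log h0, ← WithZero.exp_zero, WithZero.exp_lt_exp]
  simp [hr]

theorem ofHeightOneSpectrum_injective :
    Function.Injective (Place.ofHeightOneSpectrum (K := K) (F := F) (R := R)) := by
  intro w w' h
  ext r
  rw [← ord_ofHeightOneSpectrum_pos_iff (K := K) (F := F), ← ord_ofHeightOneSpectrum_pos_iff (K := K) (F := F), h]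

/-- A place whose valuation ring contains the Dedekind domain `R` (with fraction field `F`) and
whose maximal ideal meets `R` nontrivially comes from a height one prime of `R`. -/
theorem exists_heightOneSpectrum_of_le (v : Place K F)
    (hR : ∀ r : R, algebraMap R F r ∈ v.toValuationSubring)
    (hne : ∃ r : R, r ≠ 0 ∧ 0 < v.ord (algebraMap R F r)) :
    ∃ w : HeightOneSpectrum R, Place.ofHeightOneSpectrum (K := K) w = v := by
  let φ : R →+* v.toValuationSubring :=
    (algebraMap R F).codRestrict v.toValuationSubring.toSubring hR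
  let P : Ideal R := Ideal.comap φ (IsLocalRing.maximalIdeal v.toValuationSubring)
  have hPmem : ∀ r : R, r ∈ P ↔ (r = 0 ∨ 0 < v.ord (algebraMap R F r)) := by
    intro r
    show φ r ∈ IsLocalRing.maximalIdeal v.toValuationSubring ↔ _
    rw [place_mem_maximalIdeal_iff]
    show (algebraMap R F r = 0 ∨ _) ↔ _
    rw [map_eq_zero_iff _ (IsFractionRing.injective R F)]
    rfl
  have hPprime : P.IsPrime := Ideal.comap_isPrime φ _
  have hPne : P ≠ ⊥ := by
    obtain ⟨r, hr0, hr⟩ := hne
    intro hbot
    have : r ∈ P := (hPmem r).mpr (Or.inr hr)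
    rw [hbot, Ideal.mem_bot] at this
    exact hr0 this
  let w : HeightOneSpectrum R := ⟨P, hPprime, hPne⟩
  refine ⟨w, ?_⟩
  apply Place.ext
  rw [Place.ofHeightOneSpectrum_toValuationSubring,
    ← HeightOneSpectrum.valuationSubringAtPrime_eq_valuationSubring]
  apply ValuationSubring.eq_of_le_of_ne_top _ _ v.ne_top'
  intro x hx
  rw [HeightOneSpectrum.valuationSubringAtPrime_eq_valuationSubring] at hx
  obtain ⟨n, d, hnd⟩ := w.exists_primeCompl_mul_eq_of_integer x hx
  have hd : (d : R) ∉ P := d.2
  have hd0 : algebraMap R F d ≠ 0 := by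
    intro h
    apply hd
    rw [hPmem]
    left
    exact (map_eq_zero_iff _ (IsFractionRing.injective R F)).mp h
  have hdo : v.ord (algebraMap R F d) = 0 := by
    have h1 := place_ord_nonneg_of_mem v (hR d)
    have h2 : ¬ 0 < v.ord (algebraMap R F d) := fun h => hd ((hPmem _).mpr (Or.inr h))
    omega
  have hx' : x = algebraMap R F n * (algebraMap R F d)⁻¹ := by
    rw [← hnd]
    field_simp
  rw [hx']
  refine mul_mem (hR n) (place_mem_of_ord_nonneg v ?_)
  rw [v.ord_inv, hdo]
  simp

end dedekind


end Fermat.Agent.H29
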