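/-
helper29: residue fields of places over an algebraically closed constant field (GEN-1, part a).
Everything lives in namespace `Fermat.Agent.H29`.
-/
import Fermat.Agent.H29.PlaceBasics

set_option autoImplicit false

noncomputable section

open AlgebraicCurve IntermediateField Polynomial IsDedekindDomain
open scoped IntermediateField.algebraAdjoinAdjoin

namespace Fermat.Agent.H29

section exchange

variable {K F : Type*} [Field K] [Field F] [Algebra K F]

/-- Exchange lemma: if `F` is algebraic over `K(y)` then it is algebraic over `K(z)` for every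
transcendental `z`. -/
theorem isAlgebraic_adjoin_simple_of_transcendental {y : F}
    [Algebra.IsAlgebraic K⟮y⟯ F] {z : F} (hz : Transcendental K z) :
    Algebra.IsAlgebraic K⟮z⟯ F := by
  have h1 : Algebra.IsAlgebraic (Algebra.adjoin K {y}) F :=
    Algebra.IsAlgebraic.trans (Algebra.adjoin K {y}) K⟮y⟯ F
  have h2 : Algebra.trdeg K F ≤ Cardinal.mk ({y} : Set F) :=
    Algebra.IsAlgebraic.trdeg_le_cardinalMk K ({y} : Set F)
  have h3 : Cardinal.mk ({y} : Set F) = 1 := by simp
  let x : PUnit → F := fun _ => z
  have hx : AlgebraicIndependent K x := algebraicIndependent_unique_type_iff.mpr hz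
  have hb : IsTranscendenceBasis K x :=
    hx.isTranscendenceBasis_of_trdeg_le_of_finite (by rw [h3] at h2; simpa using h2)
  have h4 := hb.isAlgebraic_field
  have h5 : Set.range x = {z} := by
    ext a; simp [x, eq_comm]
  rw [h5] at h4
  exact h4

end exchange

section residue

variable {K F : Type*} [Field K] [Field F] [Algebra K F]

/-- If a valuation ring of `F` contains a subfield over which `F` is algebraic, it is `F`. -/
theorem place_not_adjoin_le (v : Place K F) (E : IntermediateField K F)
    [Algebra.IsAlgebraic E F] : ¬ (∀ a : F, a ∈ E → a ∈ v.toValuationSubring) := by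
  intro h
  apply v.ne_top'
  rw [eq_top_iff]
  intro f _
  let φ : E →+* v.toValuationSubring :=
    (algebraMap E F).codRestrict v.toValuationSubring.toSubring (fun a => h a a.2)
  let _ : Algebra E v.toValuationSubring := φ.toAlgebra
  have : IsScalarTower E v.toValuationSubring F := IsScalarTower.of_algebraMap_eq (fun a => rfl)
  have hf : IsIntegral E f := (Algebra.IsAlgebraic.isAlgebraic f).isIntegral
  have hf' : IsIntegral v.toValuationSubring f := hf.tower_top
  obtain ⟨a, ha⟩ := IsIntegrallyClosed.isIntegral_iff.mp hf'
  rw [← ha]
  exact a.2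

theorem place_exists_root_of_ord_pos [IsAlgClosed K] (v : Place K F) {z : F}
    (hz : z ∈ v.toValuationSubring) :
    ∀ (n : ℕ) (q : K[X]), q.natDegree = n → q ≠ 0 → (aeval z q = 0 ∨ 0 < v.ord (aeval z q)) →
      ∃ c : K, z = algebraMap K F c ∨ 0 < v.ord (z - algebraMap K F c) := by
  intro n
  induction n with
  | zero =>
    intro q hq hq0 h
    exfalso
    rw [Polynomial.natDegree_eq_zero] at hq
    obtain ⟨a, rfl⟩ := hq
    have ha : a ≠ 0 := by
      rintro rfl
      exact hq0 (by simp)
    rw [aeval_C] at h
    rcases h with h | h
    · exact ha ((map_eq_zero (algebraMap K F)).mp h)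
    · rw [place_ord_algebraMap] at h
      exact lt_irrefl _ h
  | succ n ih =>
    intro q hq hq0 h
    have hdeg : q.degree ≠ 0 := by
      rw [Polynomial.degree_eq_natDegree hq0, hq]
      exact_mod_cast Nat.succ_ne_zero n
    obtain ⟨c, hc⟩ := IsAlgClosed.exists_root q hdeg
    obtain ⟨q', hq'⟩ := Polynomial.dvd_iff_isRoot.mpr hc
    have hq'0 : q' ≠ 0 := by
      rintro rfl
      exact hq0 (by simpa using hq')
    have hq'deg : q'.natDegree = n := by
      have := congrArg Polynomial.natDegree hq'
      rw [Polynomial.natDegree_mul (Polynomial.X_sub_C_ne_zero c) hq'0,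
        Polynomial.natDegree_X_sub_C, hq] at this
      omega
    have hev : aeval z q = (z - algebraMap K F c) * aeval z q' := by
      rw [hq']
      simp
    by_cases hzc : z = algebraMap K F c
    · exact ⟨c, Or.inl hzc⟩
    have hzc' : z - algebraMap K F c ≠ 0 := sub_ne_zero.mpr hzc
    have hm1 : z - algebraMap K F c ∈ v.toValuationSubring :=
      sub_mem hz (v.algebraMap_mem' c)
    have hm2 : aeval z q' ∈ v.toValuationSubring := by
      rw [Polynomial.aeval_eq_sum_range]
      refine sum_mem (fun i _ => ?_)
      rw [Algebra.smul_def]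
      exact mul_mem (v.algebraMap_mem' _) (pow_mem hz _)
    have ho1 := place_ord_nonneg_of_mem v hm1
    have ho2 := place_ord_nonneg_of_mem v hm2
    by_cases hq'z : aeval z q' = 0
    · exact ih q' hq'deg hq'0 (Or.inl hq'z)
    rcases h with h | h
    · rw [hev] at h
      rcases mul_eq_zero.mp h with h | h
      · exact absurd h hzc'
      · exact absurd h hq'z
    · rw [hev, v.ord_mul hzc' hq'z] at h
      by_cases hpos : 0 < v.ord (z - algebraMap K F c)
      · exact ⟨c, Or.inr hpos⟩
      · exact ih q' hq'deg hq'0 (Or.inr (by omega))

/-- Key lemma: over an algebraically closed constant field, every element of the valuation ring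
of a place is congruent to a constant modulo the maximal ideal. -/
theorem place_exists_const_sub [IsAlgClosed K] {y : F} [Algebra.IsAlgebraic K⟮y⟯ F]
    (v : Place K F) {z : F} (hz : z ∈ v.toValuationSubring) :
    ∃ c : K, z = algebraMap K F c ∨ 0 < v.ord (z - algebraMap K F c) := by
  by_cases hzalg : IsAlgebraic K z
  · have : Algebra.IsAlgebraic K K⟮z⟯ :=
      IntermediateField.isAlgebraic_adjoin_simple hzalg.isIntegral
    have hbot : K⟮z⟯ = ⊥ := IntermediateField.eq_bot_of_isAlgClosed_of_isAlgebraic _
    have hzmem : z ∈ (⊥ : IntermediateField K F) := hbot ▸ mem_adjoin_simple_self K z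
    obtain ⟨c, hc⟩ := IntermediateField.mem_bot.mp hzmem
    exact ⟨c, Or.inl hc.symm⟩
  · have hztr : Transcendental K z := hzalg
    have : Algebra.IsAlgebraic K⟮z⟯ F := isAlgebraic_adjoin_simple_of_transcendental (y := y) hztr
    have hpoly : ∀ q : K[X], aeval z q ∈ v.toValuationSubring := by
      intro q
      rw [Polynomial.aeval_eq_sum_range]
      refine sum_mem (fun i _ => ?_)
      rw [Algebra.smul_def]
      exact mul_mem (v.algebraMap_mem' _) (pow_mem hz _)
    by_contra hcon
    have hcon' : ∀ c : K, z ≠ algebraMap K F c ∧ ¬ 0 < v.ord (z - algebraMap K F c) := by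
      intro c
      constructor
      · intro h; exact hcon ⟨c, Or.inl h⟩
      · intro h; exact hcon ⟨c, Or.inr h⟩
    apply place_not_adjoin_le v K⟮z⟯
    intro a ha
    obtain ⟨p, q, rfl⟩ := (IntermediateField.mem_adjoin_simple_iff K a).mp ha
    by_cases hq0 : q = 0
    · subst hq0
      simp
    have hqo : v.ord (aeval z q) = 0 := by
      have h1 := place_ord_nonneg_of_mem v (hpoly q)
      by_contra h2
      obtain ⟨c, hc⟩ := place_exists_root_of_ord_pos v hz q.natDegree q rfl hq0
        (Or.inr (by omega))
      rcases hc with hc | hc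
      · exact (hcon' c).1 hc
      · exact (hcon' c).2 hc
    rw [div_eq_mul_inv]
    refine mul_mem (hpoly p) (place_mem_of_ord_nonneg v ?_)
    rw [v.ord_inv, hqo]
    simp

end residue


section degree

variable {K F : Type*} [Field K] [Field F] [Algebra K F]

/-- Over an algebraically closed constant field every place of a function field of one
variable has degree one. -/
theorem place_deg_eq_one [IsAlgClosed K] {y : F} [Algebra.IsAlgebraic K⟮y⟯ F]
    (v : Place K F) : v.deg = 1 := by
  have hsurj : Function.Surjective (algebraMap K v.ResidueField) := by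
    intro r
    obtain ⟨a, rfl⟩ := IsLocalRing.residue_surjective r
    obtain ⟨c, hc⟩ := place_exists_const_sub (y := y) v a.2
    refine ⟨c, ?_⟩
    have hmem : a - algebraMap K v.toValuationSubring c ∈
        IsLocalRing.maximalIdeal v.toValuationSubring := by
      rw [place_mem_maximalIdeal_iff]
      rcases hc with hc | hc
      · left
        show (a : F) - algebraMap K F c = 0
        rw [hc, sub_self]
      · right
        exact hc
    have h1 : IsLocalRing.residue v.toValuationSubring (a - algebraMap K v.toValuationSubring c)
        = 0 := (IsLocalRing.residue_eq_zero_iff _).mpr hmem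
    rw [map_sub, sub_eq_zero] at h1
    rw [h1]
    rfl
  have hbij : Function.Bijective (algebraMap K v.ResidueField) :=
    ⟨(algebraMap K v.ResidueField).injective, hsurj⟩
  show Module.finrank K v.ResidueField = 1
  rw [← Module.finrank_self K]
  exact ((AlgEquiv.ofBijective (Algebra.ofId K v.ResidueField) hbij).toLinearEquiv.finrank_eq).symm

end degree

end Fermat.Agent.H29
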