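/-
helper29: the fundamental identity `∑ e_v = [F : K(y)]` over the zeros of `y` (GEN-1, P-GENUS).
Everything lives in namespace `Fermat.Agent.H29`.
-/
import Fermat.Agent.H23.BlueprintRH
import Fermat.Agent.H29.ResidueConst
import Fermat.Agent.H29.PlaceDedekind

set_option autoImplicit false

noncomputable section

open AlgebraicCurve IntermediateField Polynomial IsDedekindDomain
open scoped IntermediateField.algebraAdjoinAdjoin

namespace Fermat.Agent.H29

section count

variable {K F : Type*} [Field K] [Field F] [Algebra K F]

theorem fundamentalIdentity_zeros [IsAlgClosed K] [CharZero K] (y : F) (hy : Transcendental K y)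
    [FiniteDimensional K⟮y⟯ F] :
    {v : Place K F | 0 < v.ord y}.Finite ∧
    ∑ᶠ v ∈ {v : Place K F | 0 < v.ord y}, v.ord y = (Module.finrank K⟮y⟯ F : ℤ) := by
  classical
  let A := Algebra.adjoin K {y}
  let yA : A := ⟨y, Algebra.self_mem_adjoin_singleton K y⟩
  let e : K[X] ≃ₐ[K] A := Polynomial.algEquivOfTranscendental K y hy
  have heX : e X = yA := Polynomial.algEquivOfTranscendental_apply_X K y hy
  have hPIR : IsPrincipalIdealRing A :=
    IsPrincipalIdealRing.of_surjective e.toRingEquiv.toRingHom e.surjective
  have hDA : IsDedekindDomain A := inferInstance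
  have hy0 : y ≠ 0 := by
    intro h0
    apply hy
    rw [h0]
    exact isAlgebraic_zero
  have hyA0 : yA ≠ 0 := by
    intro h
    exact hy0 (congrArg Subtype.val h)
  have hyAprime : Prime yA := by
    rw [← heX]
    exact (MulEquiv.prime_iff e.toMulEquiv).mpr Polynomial.prime_X
  let p : Ideal A := Ideal.span {yA}
  have hpprime : p.IsPrime := (Ideal.span_singleton_prime hyA0).mpr hyAprime
  have hp0 : p ≠ ⊥ := by
    simpa [p, Ideal.span_singleton_eq_bot] using hyA0
  have hpmax : p.IsMaximal := hpprime.isMaximal hp0
  have hcharL : CharZero K⟮y⟯ := charZero_of_injective_algebraMap (algebraMap K K⟮y⟯).injective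
  have hsep : Algebra.IsSeparable K⟮y⟯ F := inferInstance
  let B := integralClosure A F
  have hDB : IsDedekindDomain B := integralClosure.isDedekindDomain A K⟮y⟯ F
  have hFB : IsFractionRing B F := integralClosure.isFractionRing_of_finite_extension K⟮y⟯ F
  have hfin : Module.Finite A B := IsIntegralClosure.finite A K⟮y⟯ F B
  have htf : Module.IsTorsionFree A B := inferInstance
  have hKBF : IsScalarTower K B F := IsScalarTower.of_algebraMap_eq (fun c => rfl)
  have H := Ideal.sum_ramification_inertia B K⟮y⟯ F hp0
  let yB : B := algebraMap A B yA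
  have hyB : algebraMap B F yB = y := rfl
  have hyB0 : yB ≠ 0 := by
    intro h
    apply hy0
    rw [← hyB, h, map_zero]
  have hmap : Ideal.map (algebraMap A B) p = Ideal.span {yB} := by
    simp only [p, Ideal.map_span, Set.image_singleton, yB]
  have hmap0 : Ideal.map (algebraMap A B) p ≠ ⊥ := by
    rw [hmap]
    simpa [Ideal.span_singleton_eq_bot] using hyB0
  set T := IsDedekindDomain.primesOverFinset p B with hT
  have hTmem : ∀ P : Ideal B, P ∈ T ↔ P.IsPrime ∧ P.LiesOver p := fun P =>
    IsDedekindDomain.mem_primesOverFinset_iff hp0 B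
  have hTne : ∀ P : Ideal B, P ∈ T → P ≠ ⊥ := by
    intro P hP
    have := ((hTmem P).mp hP).2
    exact Ideal.ne_bot_of_liesOver_of_ne_bot hp0 P
  have halg : Algebra.IsAlgebraic K⟮y⟯ F := inferInstance
  let φ : {P // P ∈ T} → Place K F := fun x =>
    Place.ofHeightOneSpectrum (K := K) (F := F) (R := B)
      ⟨x.1, ((hTmem x.1).mp x.2).1, hTne x.1 x.2⟩
  have hφinj : Function.Injective φ := by
    intro x x' h
    have h1 := ofHeightOneSpectrum_injective (K := K) (F := F) (R := B) h
    apply Subtype.ext
    exact congrArg HeightOneSpectrum.asIdeal h1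
  -- ramification index
  have hord : ∀ x : {P // P ∈ T}, (φ x).ord y = (Ideal.ramificationIdx' p x.1 : ℤ) := by
    intro x
    have hxprime := ((hTmem x.1).mp x.2).1
    rw [Ideal.IsDedekindDomain.ramificationIdx'_eq_multiplicity hmap0 hxprime, hmap]
    show (Place.ofHeightOneSpectrum (K := K) (F := F) (R := B) _).ord y = _
    have hval : (HeightOneSpectrum.valuation F
        (⟨x.1, hxprime, hTne x.1 x.2⟩ : HeightOneSpectrum B)) y
          = (⟨x.1, hxprime, hTne x.1 x.2⟩ : HeightOneSpectrum B).intValuation yB :=
      HeightOneSpectrum.valuation_of_algebraMap _ yB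
    rw [ord_ofHeightOneSpectrum, hval,
      HeightOneSpectrum.intValuation_eq_exp_neg_multiplicity _ hyB0]
    simp
  -- inertia degree
  have hinert : ∀ x : {P // P ∈ T}, Ideal.inertiaDeg' p x.1 = 1 := by
    intro x
    have hxprime := ((hTmem x.1).mp x.2).1
    have hxover := ((hTmem x.1).mp x.2).2
    have hxmax : x.1.IsMaximal := hxprime.isMaximal (hTne x.1 x.2)
    rw [Ideal.inertiaDeg'_algebraMap]
    let _ := Ideal.Quotient.field p
    have hnt : (1 : B ⧸ x.1) ≠ 0 := by
      have := Ideal.Quotient.nontrivial_iff.mpr hxprime.ne_top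
      exact one_ne_zero
    rw [finrank_eq_one_iff_of_nonzero' (1 : B ⧸ x.1) hnt]
    intro z
    obtain ⟨b, rfl⟩ := Ideal.Quotient.mk_surjective z
    have hbmem : algebraMap B F b ∈ (φ x).toValuationSubring := by
      show (HeightOneSpectrum.valuation F _) _ ≤ 1
      exact HeightOneSpectrum.valuation_le_one _ b
    obtain ⟨c, hc⟩ := place_exists_const_sub (y := y) (φ x) hbmem
    have hsub : b - algebraMap K B c ∈ x.1 := by
      have := (ord_ofHeightOneSpectrum_pos_iff (K := K) (F := F) (R := B)
        ⟨x.1, hxprime, hTne x.1 x.2⟩ (b - algebraMap K B c)).mp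
      apply this
      rcases hc with hc | hc
      · left
        apply IsFractionRing.injective B F
        rw [map_sub, map_zero, sub_eq_zero, hc]
        rfl
      · right
        rw [map_sub]
        exact hc
    refine ⟨Ideal.Quotient.mk p (algebraMap K A c), ?_⟩
    rw [Algebra.smul_def, mul_one]
    have h1 : algebraMap (A ⧸ p) (B ⧸ x.1) (Ideal.Quotient.mk p (algebraMap K A c))
        = Ideal.Quotient.mk x.1 (algebraMap A B (algebraMap K A c)) := rfl
    rw [h1]
    symm
    rw [Ideal.Quotient.eq]
    exact hsub
  -- the range of φ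
  have hrange : Set.range φ = {v : Place K F | 0 < v.ord y} := by
    ext v
    simp only [Set.mem_range, Set.mem_ofPred_eq]
    constructor
    · rintro ⟨x, rfl⟩
      have hxprime := ((hTmem x.1).mp x.2).1
      have hxover := ((hTmem x.1).mp x.2).2
      have hmem : yB ∈ x.1 := by
        have h1 : yA ∈ p := Ideal.mem_span_singleton_self yA
        rw [hxover.over] at h1
        exact h1
      have := (ord_ofHeightOneSpectrum_pos_iff (K := K) (F := F) (R := B)
        ⟨x.1, hxprime, hTne x.1 x.2⟩ yB).mpr hmem
      rcases this with h | h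
      · exact absurd h hyB0
      · exact h
    · intro hv
      have hyv : y ∈ v.toValuationSubring := place_mem_of_ord_nonneg v hv.le
      have hAv : ∀ a : A, (a : F) ∈ v.toValuationSubring := by
        intro a
        have ha : (a : F) ∈ Algebra.adjoin K {y} := a.2
        rw [Algebra.adjoin_singleton_eq_range_aeval] at ha
        obtain ⟨q, hq⟩ := ha
        rw [← hq]
        show aeval y q ∈ _
        rw [Polynomial.aeval_eq_sum_range]
        refine sum_mem (fun i _ => ?_)
        rw [Algebra.smul_def]
        exact mul_mem (v.algebraMap_mem' _) (pow_mem hyv _)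
      have hBv : ∀ b : B, algebraMap B F b ∈ v.toValuationSubring := by
        intro b
        let ψ : A →+* v.toValuationSubring :=
          (algebraMap A F).codRestrict v.toValuationSubring.toSubring hAv
        let _ : Algebra A v.toValuationSubring := ψ.toAlgebra
        have : IsScalarTower A v.toValuationSubring F :=
          IsScalarTower.of_algebraMap_eq (fun a => rfl)
        have hb : IsIntegral A (algebraMap B F b) := b.2
        have hb' : IsIntegral v.toValuationSubring (algebraMap B F b) := hb.tower_top
        obtain ⟨a, ha⟩ := IsIntegrallyClosed.isIntegral_iff.mp hb'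
        rw [← ha]
        exact a.2
      obtain ⟨w, hw⟩ := exists_heightOneSpectrum_of_le (K := K) (F := F) (R := B) v hBv
        ⟨yB, hyB0, hv⟩
      have hyw : yB ∈ w.asIdeal := by
        apply (ord_ofHeightOneSpectrum_pos_iff (K := K) (F := F) (R := B) w yB).mp
        right
        rw [hw]
        exact hv
      have hwT : w.asIdeal ∈ T := by
        rw [hTmem]
        refine ⟨w.isPrime, ⟨?_⟩⟩
        apply hpmax.eq_of_le
        · intro htop
          have h1 : (1 : A) ∈ Ideal.under A w.asIdeal := by rw [htop]; trivial
          have h2 : (1 : B) ∈ w.asIdeal := by simpa [Ideal.under] using h1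
          exact w.isPrime.ne_top ((Ideal.eq_top_iff_one _).mpr h2)
        · rw [Ideal.span_le]
          intro a ha
          rw [Set.mem_singleton_iff] at ha
          subst ha
          exact hyw
      refine ⟨⟨w.asIdeal, hwT⟩, ?_⟩
      rw [← hw]
  refine ⟨hrange ▸ Set.finite_range φ, ?_⟩
  rw [← hrange, finsum_mem_range hφinj, finsum_eq_sum_of_fintype]
  simp_rw [hord]
  rw [← H, Finset.sum_coe_sort T (fun P => (Ideal.ramificationIdx' p P : ℤ))]
  push_cast
  refine Finset.sum_congr rfl (fun P hP => ?_)
  rw [hinert ⟨P, hP⟩]
  simp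

end count


/-- **GEN-1** (P-GENUS): the fundamental identity for a function field of one variable over an
algebraically closed field of characteristic zero. -/
theorem fundamentalIdentity : Fermat.Agent.H23.FundamentalIdentityStatement := by
  intro K F _ _ _ _ _ y hy hfin
  haveI := hfin
  refine ⟨fun v => place_deg_eq_one (y := y) v, ?_⟩
  exact fundamentalIdentity_zeros y hy

end Fermat.Agent.H29
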